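/-
S56 block (F), F-A ORDERS, A10 (VOL): the volume argument.   (Blueprint: report 279, refined in the comments below.)

`𝒟` a dual pair over the inertia group `I = P.ine`, `#X = p^2`, `I` acts on `X` and on `X'` through a cyclic group of order `d`
prime to `p` (generated by the image of `σ₀`), freely outside `0`.  Then `d = p^2 - 1` and "`s(x) = 1/(p^2-1)`" for all `x ≠ 0`, `w ≠ 0`.

PLAN.  `n = #X`, `F = (f_i(x))`, `Bm = (b_j(w))` for `O`-bases of `H`, `B` consisting of equivariant functions, `Ξ = (e(x,w)⁻¹)`.
 V1  `v(det Ξ)^2 = v(n)^n`.                                                        (Vol/Pair.lean)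
 V2  `v(det F) v(det Ξ) v(det Bm) = v(n)^n`   (`H`, `B` are dual lattices).          (Vol/Pair.lean)
 V3  `v(det F)^(2d) ≤ v(p)^((n-1)(2 m₀ + d - 1))` if `s ≥ m₀/d` on `X`: finite Fourier transform along the orbits of `σ₀`; the `k`-th Fourier
     coefficient `y` satisfies `σ₀ y = ξ^k y`, so `y^d` is fixed by `I`, `v(y)^d = v(p)^m`, and `m mod d` determines `k`.
                                                                                   (Vol/Hat, Eigen, Cyc, Reps, DetLe.lean)
 V4  arithmetic.                                                                   (Vol/Level, Main.lean)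

THIS FILE: determinants and valuations.
-/
import Fermat.Agent.S56.F.Order.Basic

set_option autoImplicit false

open Fermat.Agent.PT.Local

noncomputable section

namespace Fermat.Agent.S56.F

namespace Vol

variable {P : Plc}

/-- Ultrametric (Leibniz) bound: if `c j` divides the whole `j`-th column, then `∏ c j` divides the determinant. -/
theorem dv_det_of_cols {ι : Type} [Fintype ι] [DecidableEq ι] (M : Matrix ι ι Qb) (c : ι → Qb)
    (h : ∀ i j, Dv P (c j) (M i j)) : Dv P (∏ j, c j) M.det := by
  unfold Dv at h ⊢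
  rw [Matrix.det_apply]
  refine Valuation.map_sum_le _ fun σ _ => ?_
  have h1 : P.v (Equiv.Perm.sign σ • ∏ i, M (σ i) i) = P.v (∏ i, M (σ i) i) := by
    rcases Int.units_eq_one_or (Equiv.Perm.sign σ) with h2 | h2
    · rw [h2, one_smul]
    · rw [h2, Units.neg_smul, one_smul, Valuation.map_neg]
  rw [h1, map_prod, map_prod]
  exact Finset.prod_le_prod (fun _ _ => zero_le) (fun i _ => h (σ i) i)

theorem v_det_le_one {ι : Type} [Fintype ι] [DecidableEq ι] (M : Matrix ι ι Qb)
    (h : ∀ i j, M i j ∈ P.A) : P.v M.det ≤ 1 := by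
  have h1 := dv_det_of_cols (P := P) M (fun _ => 1) (fun i j => by
    unfold Dv
    rw [map_one]
    exact (P.A.valuation_le_one_iff _).2 (h i j))
  unfold Dv at h1
  simpa using h1

theorem dv_det_of_factor {ι : Type} [Fintype ι] [DecidableEq ι] (F M T : Matrix ι ι Qb) (hF : F = M * T)
    (hT : ∀ i j, T i j ∈ P.A) (c : ι → Qb) (h : ∀ i j, Dv P (c j) (M i j)) : Dv P (∏ j, c j) F.det := by
  have h1 := dv_det_of_cols M c h
  have h2 := v_det_le_one (P := P) T hT
  unfold Dv at h1 ⊢
  rw [hF, Matrix.det_mul, map_mul]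
  calc P.v M.det * P.v T.det ≤ P.v (∏ j, c j) * 1 := mul_le_mul' h1 h2
    _ = P.v (∏ j, c j) := mul_one _

/-- A family contained in the `O`-span of another family has a smaller determinant.
(`g j = ∑ i, U j i • f i` with `U` integral; the reindexing equivalences only change the determinant by a sign:
with `π = eκ.trans eι.symm`, `G.submatrix π.symm π.symm = U.submatrix π.symm id * F`, `Matrix.det_submatrix_equiv_self`.) -/
theorem v_det_le_of_mem_span {ι κ Y : Type} [Fintype ι] [DecidableEq ι] [Fintype κ] [DecidableEq κ]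
    (f : ι → Y → Qb) (g : κ → Y → Qb) (eι : ι ≃ Y) (eκ : κ ≃ Y)
    (h : ∀ j, g j ∈ Submodule.span P.A (Set.range f)) :
    P.v (Matrix.of fun j j' => g j (eκ j')).det ≤ P.v (Matrix.of fun i i' => f i (eι i')).det := by
  have h' : ∀ j, ∃ c : ι → P.A, ∑ i, c i • f i = g j := fun j =>
    (Submodule.mem_span_range_iff_exists_fun P.A).1 (h j)
  choose U hU using h'
  let π : κ ≃ ι := eκ.trans eι.symm
  have hπ : ∀ j, eι (π j) = eκ j := fun j => by simp [π]
  let F : Matrix ι ι Qb := Matrix.of fun i i' => f i (eι i')
  let U' : Matrix κ κ Qb := Matrix.of fun j j'' => ((U j (π j'') : P.A) : Qb)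
  have hG : (Matrix.of fun j j' => g j (eκ j')) = U' * F.submatrix π π := by
    ext j j'
    rw [Matrix.mul_apply, Matrix.of_apply, ← hU j, Finset.sum_apply]
    rw [← Equiv.sum_comp π]
    refine Finset.sum_congr rfl fun j'' _ => ?_
    simp only [U', F, Matrix.of_apply, Matrix.submatrix_apply, hπ, Pi.smul_apply]
    rfl
  rw [hG, Matrix.det_mul, Matrix.det_submatrix_equiv_self, map_mul]
  have h2 := v_det_le_one (P := P) U' (fun i j => (U i (π j)).2)
  calc P.v U'.det * P.v F.det ≤ 1 * P.v F.det := mul_le_mul' h2 le_rfl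
    _ = P.v F.det := one_mul _

end Vol

end Fermat.Agent.S56.F

end
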