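/-
S56 block (F), A10 (VOL), V3b: eigenvectors of inertia; arithmetic lemmas.  (Plan: Vol/Det.lean.)
-/
import Fermat.Agent.S56.F.Order.Basic
import Fermat.Agent.S36R.K0.BlockL

set_option autoImplicit false

open Fermat.Agent.PT.Local

noncomputable section

namespace Fermat.Agent.S56.F

namespace Vol

variable {P : Plc}

/-- `y^d` is fixed by inertia, so `S36R.K0L.exists_zpow` applies (`S36R.K0L.mem_K0_iff`). -/
theorem exists_zpow_of_eigen {ξ y : Qb} {d : ℕ} (hξ : ξ ^ d = 1) (hy : y ≠ 0)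
    (h : ∀ σ ∈ P.ine, ∃ j : ℕ, σ y = ξ ^ j * y) : ∃ m : ℤ, P.v y ^ d = P.v (P.ℓ : Qb) ^ m := by
  have h1 : y ^ d ∈ S36R.K0L.K0 P := by
    rw [S36R.K0L.mem_K0_iff]
    intro σ hσ
    obtain ⟨j, hj⟩ := h σ hσ
    rw [map_pow, hj, mul_pow, ← pow_mul, mul_comm j d, pow_mul, hξ, one_pow, one_mul]
  obtain ⟨m, hm⟩ := S36R.K0L.exists_zpow P h1 (pow_ne_zero _ hy)
  exact ⟨m, by rw [← map_pow, hm]⟩

/-- The class of the valuation modulo `v(p)^ℤ` determines the eigenvalue.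
PROOF: `m = m' + d t`; `u := y / (y' * p^t)` has `v u = 1` (`v(u)^d = 1`), `σ₀ u = ξ^k / ξ^k' * u`, `v (σ₀ u - u) < 1` (`mem_ine_iff`), hence
`v (ξ^k - ξ^k') < 1` and `PT.Local.eq_of_v_sub_lt_one`. -/
theorem pow_eq_of_class {ξ y y' : Qb} {d : ℕ} (hd : ¬ P.ℓ ∣ d) (hξ : ξ ^ d = 1) {σ₀ : GQ} (hσ₀ : σ₀ ∈ P.ine)
    (hy : y ≠ 0) (hy' : y' ≠ 0) {k k' : ℕ} (hk : σ₀ y = ξ ^ k * y) (hk' : σ₀ y' = ξ ^ k' * y') {m m' : ℤ}
    (hm : P.v y ^ d = P.v (P.ℓ : Qb) ^ m) (hm' : P.v y' ^ d = P.v (P.ℓ : Qb) ^ m') (hmm : (d : ℤ) ∣ m - m') :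
    ξ ^ k = ξ ^ k' := by
  have hd0 : d ≠ 0 := by rintro rfl; exact hd (dvd_zero _)
  have hl0 : (P.ℓ : Qb) ≠ 0 := Nat.cast_ne_zero.2 P.prime.ne_zero
  have hvl0 : P.v (P.ℓ : Qb) ≠ 0 := (Valuation.ne_zero_iff _).2 hl0
  have hvξ : P.v ξ = 1 := hensel_v_eq_one_of_pow_eq_one P hd0 hξ
  obtain ⟨t, ht⟩ := hmm
  have hm_eq : m = m' + d * t := by linarith
  set u : Qb := y / (y' * (P.ℓ : Qb) ^ t) with hu
  have hden : y' * (P.ℓ : Qb) ^ t ≠ 0 := mul_ne_zero hy' (zpow_ne_zero _ hl0)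
  have hvu : P.v u = 1 := by
    have h1 : P.v u ^ d = 1 ^ d := by
      rw [one_pow, hu, map_div₀, map_mul, map_zpow₀, div_pow, mul_pow, hm, hm', hm_eq, zpow_add₀ hvl0,
        ← zpow_natCast (P.v (P.ℓ : Qb) ^ t) d, ← zpow_mul, mul_comm t (d : ℤ)]
      exact div_self (mul_ne_zero (zpow_ne_zero _ hvl0) (zpow_ne_zero _ hvl0))
    exact (pow_left_inj₀ zero_le zero_le hd0).1 h1
  have hσu : ξ ^ k' * σ₀ u = ξ ^ k * u := by
    rw [hu, map_div₀, map_mul, map_zpow₀, map_natCast, hk, hk']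
    have hξ0 : ξ ^ k' ≠ 0 := by
      apply pow_ne_zero
      rintro rfl
      rw [zero_pow hd0] at hξ
      exact zero_ne_one hξ
    field_simp
  have h2 : P.v (σ₀ u - u) < 1 :=
    ((mem_ine_iff P σ₀).1 hσ₀).2 u ((P.A.valuation_le_one_iff u).1 hvu.le)
  have h3 : (ξ ^ k - ξ ^ k') * u = ξ ^ k' * (σ₀ u - u) := by
    rw [mul_sub, hσu]; ring
  have h4 : P.v (ξ ^ k - ξ ^ k') < 1 := by
    have := congrArg P.v h3
    rw [map_mul, map_mul, hvu, mul_one, map_pow, hvξ, one_pow, one_mul] at this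
    rw [this]
    exact h2
  exact eq_of_v_sub_lt_one P hd (by rw [← pow_mul, mul_comm, pow_mul, hξ, one_pow])
    (by rw [← pow_mul, mul_comm, pow_mul, hξ, one_pow]) h4

/-- `d` integers `≥ m₀`, pairwise incongruent modulo `d`, have sum `≥ d m₀ + d (d-1)/2`. -/
theorem sum_ge (d : ℕ) (m : ℕ → ℤ) (m₀ : ℤ) (h0 : ∀ k < d, m₀ ≤ m k)
    (hinj : ∀ k < d, ∀ k' < d, (d : ℤ) ∣ m k - m k' → k = k') :
    (d : ℤ) * (2 * m₀ + d - 1) ≤ 2 * ∑ k ∈ Finset.range d, m k := by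
  rcases Nat.eq_zero_or_pos d with rfl | hd
  · simp
  have hdZ : (0 : ℤ) < d := by exact_mod_cast hd
  set r : ℕ → ℕ := fun k => ((m k - m₀) % d).toNat with hr
  have hrc : ∀ k, ((r k : ℕ) : ℤ) = (m k - m₀) % d := fun k =>
    Int.toNat_of_nonneg (Int.emod_nonneg _ hdZ.ne')
  have hrlt : ∀ k, r k < d := by
    intro k
    have h1 := Int.emod_lt_of_pos (m k - m₀) hdZ
    rw [← hrc k] at h1
    exact_mod_cast h1
  have hrinj : Set.InjOn r (Finset.range d : Set ℕ) := by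
    intro k hk k' hk' hkk
    have hk1 := Finset.mem_range.1 (Finset.mem_coe.1 hk)
    have hk2 := Finset.mem_range.1 (Finset.mem_coe.1 hk')
    refine hinj k hk1 k' hk2 ?_
    have h1 : (m k - m₀) % d = (m k' - m₀) % d := by rw [← hrc k, ← hrc k', hkk]
    have h3 : (d : ℤ) ∣ (m k - m₀) - (m k' - m₀) := Int.ModEq.dvd (show (m k' - m₀) ≡ (m k - m₀) [ZMOD d] from h1.symm)
    have h4 : (m k - m₀) - (m k' - m₀) = m k - m k' := by ring
    rwa [h4] at h3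
  have himg : (Finset.range d).image r = Finset.range d := by
    apply Finset.eq_of_subset_of_card_le
    · intro x hx
      obtain ⟨k, -, rfl⟩ := Finset.mem_image.1 hx
      exact Finset.mem_range.2 (hrlt k)
    · rw [Finset.card_image_of_injOn hrinj]
  have hsum : ∑ k ∈ Finset.range d, r k = ∑ i ∈ Finset.range d, i := by
    conv_rhs => rw [← himg]
    rw [Finset.sum_image hrinj]
  have hgauss : ((∑ k ∈ Finset.range d, r k : ℕ) : ℤ) * 2 = d * (d - 1) := by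
    rw [hsum]
    have := Finset.sum_range_id_mul_two d
    have h2 := congrArg (Nat.cast : ℕ → ℤ) this
    rw [Nat.cast_mul, Nat.cast_mul, Nat.cast_sub hd] at h2
    exact_mod_cast h2
  have hle : ∀ k ∈ Finset.range d, m₀ + (r k : ℤ) ≤ m k := by
    intro k hk
    have hk1 := Finset.mem_range.1 hk
    have h1 : 0 ≤ m k - m₀ := sub_nonneg.2 (h0 k hk1)
    have h2 := Int.emod_add_mul_ediv (m k - m₀) d
    have h3 : 0 ≤ (d : ℤ) * ((m k - m₀) / d) := mul_nonneg hdZ.le (Int.ediv_nonneg h1 hdZ.le)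
    rw [hrc k]
    linarith
  have h5 := Finset.sum_le_sum hle
  rw [Finset.sum_add_distrib, Finset.sum_const, Finset.card_range, nsmul_eq_mul,
    ← Nat.cast_sum] at h5
  nlinarith [h5, hgauss]

theorem arith {n d m m' : ℕ} (hn : 1 < n) (hd : d ∣ n - 1) (hm : 1 ≤ m) (hm' : 1 ≤ m')
    (h : (n - 1) * (m + m' + (d - 1)) ≤ n * d) : d = n - 1 ∧ m = 1 ∧ m' = 1 := by
  obtain ⟨N, rfl⟩ : ∃ N, n = N + 1 := ⟨n - 1, by omega⟩
  rw [Nat.add_sub_cancel] at hd h ⊢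
  have hN : 1 ≤ N := by omega
  have hdN : d ≤ N := Nat.le_of_dvd hN hd
  have hd1 : 1 ≤ d := Nat.pos_of_dvd_of_pos hd hN
  obtain ⟨e, rfl⟩ : ∃ e, d = e + 1 := ⟨d - 1, by omega⟩
  obtain ⟨a, rfl⟩ : ∃ a, m = a + 1 := ⟨m - 1, by omega⟩
  obtain ⟨b, rfl⟩ : ∃ b, m' = b + 1 := ⟨m' - 1, by omega⟩
  rw [Nat.add_sub_cancel] at h
  have h1 : N * (a + b) + N ≤ e + 1 := by nlinarith
  have h2 : N * (a + b) = 0 := by omega
  have h3 : a + b = 0 := by
    rcases Nat.mul_eq_zero.1 h2 with h | h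
    · omega
    · exact h
  refine ⟨by omega, by omega, by omega⟩

end Vol

end Fermat.Agent.S56.F

end
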