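/-
S56 block (F), A10 (VOL), V3a: the finite Fourier transform.  (Plan: Vol/Det.lean.)
-/
import Fermat.Agent.S56.F.Order.Basic

set_option autoImplicit false

open Fermat.Agent.PT.Local

noncomputable section

namespace Fermat.Agent.S56.F

namespace Vol

variable {P : Plc}

/-- The `k`-th Fourier coefficient of `g : ℤ/d → Qb` (given as a function on `ℕ`). -/
def hat (ξ : Qb) (d : ℕ) (g : ℕ → Qb) (k : ℕ) : Qb :=
  (d : Qb)⁻¹ * ∑ j ∈ Finset.range d, (ξ⁻¹) ^ (j * k) * g j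

theorem hat_inv {ξ : Qb} {d : ℕ} (hξ : IsPrimitiveRoot ξ d) (hd : 0 < d) (g : ℕ → Qb) {i : ℕ} (hi : i < d) :
    g i = ∑ k ∈ Finset.range d, ξ ^ (i * k) * hat ξ d g k := by
  have hd0 : (d : Qb) ≠ 0 := Nat.cast_ne_zero.2 hd.ne'
  have hξ0 : ξ ≠ 0 := hξ.ne_zero hd.ne'
  have key : ∀ j ∈ Finset.range d, ∑ k ∈ Finset.range d, ξ ^ (i * k) * (ξ⁻¹) ^ (j * k) =
      if j = i then (d : Qb) else 0 := by
    intro j hj
    have hj' := Finset.mem_range.1 hj
    have e : ∀ k, ξ ^ (i * k) * (ξ⁻¹) ^ (j * k) = (ξ ^ i * (ξ⁻¹) ^ j) ^ k := fun k => by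
      rw [mul_pow, ← pow_mul, ← pow_mul]
    simp_rw [e]
    split_ifs with hji
    · subst hji
      have h1 : ξ ^ j * ξ⁻¹ ^ j = 1 := by rw [← mul_pow, mul_inv_cancel₀ hξ0, one_pow]
      rw [h1]
      simp
    · have hne : ξ ^ i * ξ⁻¹ ^ j ≠ 1 := by
        intro h
        apply hji
        have h2 : ξ ^ i = ξ ^ j := by
          rw [inv_pow] at h
          exact (mul_inv_eq_one₀ (pow_ne_zero j hξ0)).1 h
        exact (hξ.pow_inj hi hj' h2).symm
      have h1 : (ξ ^ i * ξ⁻¹ ^ j) ^ d = 1 := by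
        rw [mul_pow, ← pow_mul, ← pow_mul, mul_comm i, mul_comm j, pow_mul, pow_mul, inv_pow,
          hξ.pow_eq_one]
        simp
      rw [geom_sum_eq hne, h1, sub_self, zero_div]
  unfold hat
  calc g i = (d : Qb)⁻¹ * ∑ j ∈ Finset.range d, (if j = i then (d : Qb) else 0) * g j := by
        rw [Finset.sum_eq_single i]
        · rw [if_pos rfl, ← mul_assoc, inv_mul_cancel₀ hd0, one_mul]
        · intro j _ hji
          rw [if_neg hji, zero_mul]
        · intro h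
          exact absurd (Finset.mem_range.2 hi) h
    _ = (d : Qb)⁻¹ * ∑ j ∈ Finset.range d,
          (∑ k ∈ Finset.range d, ξ ^ (i * k) * (ξ⁻¹) ^ (j * k)) * g j := by
        congr 1
        exact Finset.sum_congr rfl (fun j hj => by rw [key j hj])
    _ = ∑ k ∈ Finset.range d, ξ ^ (i * k) *
          ((d : Qb)⁻¹ * ∑ j ∈ Finset.range d, (ξ⁻¹) ^ (j * k) * g j) := by
        simp_rw [Finset.sum_mul, Finset.mul_sum]
        rw [Finset.sum_comm]
        exact Finset.sum_congr rfl fun k _ => Finset.sum_congr rfl fun j _ => by ring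

theorem dv_hat {ξ : Qb} {d : ℕ} (hd : ¬ P.ℓ ∣ d) (hξ : ξ ^ d = 1) (g : ℕ → Qb) (a : Qb)
    (h : ∀ j < d, Dv P a (g j)) (k : ℕ) : Dv P a (hat ξ d g k) := by
  have hd0 : d ≠ 0 := by
    rintro rfl
    exact hd (dvd_zero _)
  have hvξ : P.v ξ = 1 := by
    have h1 : P.v ξ ^ d = 1 := by rw [← map_pow, hξ, map_one]
    exact (pow_eq_one_iff.1 h1).resolve_right hd0
  unfold Dv at h ⊢
  unfold hat
  rw [map_mul, map_inv₀, v_natCast_eq_one P hd, inv_one, one_mul]
  refine Valuation.map_sum_le _ fun j hj => ?_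
  rw [map_mul, map_pow, map_inv₀, hvξ, inv_one, one_pow, one_mul]
  exact h j (Finset.mem_range.1 hj)

theorem sum_range_shift (φ : ℕ → Qb) (d : ℕ) (hφ : ∀ j, φ (j + d) = φ j) (i : ℕ) :
    ∑ j ∈ Finset.range d, φ (j + i) = ∑ j ∈ Finset.range d, φ j := by
  induction i with
  | zero => simp
  | succ i ih =>
    rw [← ih]
    have h1 := Finset.sum_range_succ' (fun j => φ (j + i)) d
    have h2 := Finset.sum_range_succ (fun j => φ (j + i)) d
    rw [h2] at h1
    have h3 : φ (d + i) = φ (0 + i) := by rw [add_comm d i, hφ, zero_add]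
    rw [h3] at h1
    have h4 := add_right_cancel h1
    rw [h4]
    exact Finset.sum_congr rfl fun j _ => by rw [add_assoc, add_comm i 1]

theorem hat_shift {ξ : Qb} {d : ℕ} (hξ : ξ ^ d = 1) (g : ℕ → Qb) (hg : ∀ j, g (j + d) = g j) (i k : ℕ) :
    hat ξ d (fun j => g (j + i)) k = ξ ^ (i * k) * hat ξ d g k := by
  by_cases hd : d = 0
  · subst hd
    simp [hat]
  have hξ0 : ξ ≠ 0 := by
    rintro rfl
    rw [zero_pow hd] at hξ
    exact zero_ne_one hξ
  have hper : ∀ j, (ξ⁻¹) ^ ((j + d) * k) * g (j + d) = (ξ⁻¹) ^ (j * k) * g j := by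
    intro j
    have h0 : (ξ⁻¹) ^ (d * k) = 1 := by rw [pow_mul, inv_pow, hξ, inv_one, one_pow]
    rw [hg, add_mul, pow_add, h0, mul_one]
  have h1 := sum_range_shift (fun j => (ξ⁻¹) ^ (j * k) * g j) d hper i
  unfold hat
  rw [← h1, mul_left_comm]
  congr 1
  rw [Finset.mul_sum]
  refine Finset.sum_congr rfl fun j _ => ?_
  rw [add_mul, pow_add, ← mul_assoc, ← mul_assoc]
  congr 1
  rw [mul_comm (ξ ^ (i * k)), mul_assoc, ← mul_pow, mul_inv_cancel₀ hξ0, one_pow, mul_one]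

end Vol

end Fermat.Agent.S56.F

end
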