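/-
S56 block (F), A10 (VOL), V3c: cyclic free actions, column bounds for one orbit.  (Plan: Vol/Det.lean.)
-/
import Fermat.Agent.S56.F.Order.Vol.Hat
import Fermat.Agent.S56.F.Order.Vol.Eigen

set_option autoImplicit false

open Fermat.Agent.PT.Local

noncomputable section

namespace Fermat.Agent.S56.F

namespace Vol

variable {P : Plc}

/-- `I` acts through the cyclic group of order `d` generated by `σ₀`, freely outside `0`. -/
structure CycFree {X : Type} [AddCommGroup X] (act : P.ine → X →+ X) (σ₀ : P.ine) (d : ℕ) : Prop where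
  cyc : ∀ σ : P.ine, ∃ j : ℕ, ∀ x, act σ x = act (σ₀ ^ j) x
  ord : ∀ x, act (σ₀ ^ d) x = x
  free : ∀ j, 0 < j → j < d → ∀ x, act (σ₀ ^ j) x = x → x = 0

variable {X X' : Type} [AddCommGroup X] [AddCommGroup X'] [Finite X] [Finite X']
  (𝒟 : DualPair P P.ine X X') {σ₀ : P.ine} {d : ℕ}

/-- the values of `f - f 0` along the orbit of `x`. -/
def orb (σ₀ : P.ine) (f : X → Qb) (x : X) (j : ℕ) : Qb := f (𝒟.act (σ₀ ^ j) x) - f 0

/-- `σ (orb f x j) = orb f x (j + i)` (`Equi`, `DualPair.act_mul`), `σ ξ = ξ` (`S36R.K0L.root_mem_K0`), then `hat_shift`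
(periodicity from `hc.ord`). -/
theorem Cyc_act_pow_add (i j : ℕ) (x : X) :
    𝒟.act (σ₀ ^ i) (𝒟.act (σ₀ ^ j) x) = 𝒟.act (σ₀ ^ (j + i)) x := by
  rw [← 𝒟.act_mul, ← pow_add, add_comm]

theorem map_hat_orb (hc : CycFree 𝒟.act σ₀ d) (hd : ¬ P.ℓ ∣ d) {ξ : Qb} (hξ : ξ ^ d = 1) {f : X → Qb}
    (hf : Equi 𝒟.act f) (x : X) (k : ℕ) (σ : P.ine) (i : ℕ) (hi : ∀ x, 𝒟.act σ x = 𝒟.act (σ₀ ^ i) x) :
    (σ : GQ) (hat ξ d (orb 𝒟 σ₀ f x) k) = ξ ^ (i * k) * hat ξ d (orb 𝒟 σ₀ f x) k := by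
  have hσξ : (σ : GQ) ξ = ξ :=
    (Fermat.Agent.S36R.K0L.mem_K0_iff P ξ).1 (Fermat.Agent.S36R.K0L.root_mem_K0 P hd hξ) σ σ.2
  have horb : ∀ j, (σ : GQ) (orb 𝒟 σ₀ f x j) = orb 𝒟 σ₀ f x (j + i) := by
    intro j
    unfold orb
    rw [map_sub, ← hf σ, ← hf σ, map_zero, hi, Cyc_act_pow_add]
  have hper : ∀ j, orb 𝒟 σ₀ f x (j + d) = orb 𝒟 σ₀ f x j := by
    intro j
    unfold orb
    rw [← Cyc_act_pow_add, hc.ord]
  rw [← hat_shift hξ _ hper]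
  unfold hat
  rw [map_mul, map_inv₀, map_natCast, map_sum]
  congr 1
  apply Finset.sum_congr rfl
  intro j _
  rw [map_mul, map_pow, map_inv₀, hσξ, horb]

theorem Cyc_zpow_sum {G₀ : Type*} [CommGroupWithZero G₀] {a : G₀} (ha : a ≠ 0) {κ : Type*} (s : Finset κ)
    (m : κ → ℤ) : a ^ (∑ k ∈ s, m k) = ∏ k ∈ s, a ^ m k := by
  classical
  induction s using Finset.induction_on with
  | empty => simp
  | insert k s hk ih => rw [Finset.sum_insert hk, Finset.prod_insert hk, zpow_add₀ ha, ih]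

/-- **Column bounds for one orbit.**  `c k` := the entry `hat ξ d (orb (f i) x) k` of largest valuation (`0` if `ι` is empty).  If some `c k = 0`
(`k < d`) the product vanishes.  Otherwise `v (c k)^d = v(p)^(m k)` (`exists_zpow_of_eigen`, `map_hat_orb`, `hc.cyc`), `m k ≥ m₀` (`dv_hat`,
`Sge.act` with `ine_le_dec`), the `m k` are pairwise incongruent mod `d` (`pow_eq_of_class`, `map_hat_orb` for `σ = σ₀`, `i = 1`,
`IsPrimitiveRoot.pow_inj`), and `sum_ge` applies. -/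
theorem exists_col_bound (hc : CycFree 𝒟.act σ₀ d) (hd : ¬ P.ℓ ∣ d) {ξ : Qb} (hξ : IsPrimitiveRoot ξ d)
    (a₀ : Qb) (m₀ : ℕ) (ha₀ : P.v a₀ ^ d = P.v (P.ℓ : Qb) ^ m₀) (x : X) (hx : 𝒟.Sge x a₀)
    {ι : Type} [Finite ι] (f : ι → X → Qb) (hfH : ∀ i, f i ∈ 𝒟.H) (hfE : ∀ i, Equi 𝒟.act (f i)) :
    ∃ c : ℕ → Qb, (∀ i k, Dv P (c k) (hat ξ d (orb 𝒟 σ₀ (f i) x) k)) ∧
      P.v (∏ k ∈ Finset.range d, c k) ^ (2 * d) ≤ P.v (P.ℓ : Qb) ^ (d * (2 * m₀ + (d - 1))) := by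
  classical
  have hd0 : 0 < d := by
    rcases Nat.eq_zero_or_pos d with h | h
    · exact absurd (h ▸ dvd_zero _) hd
    · exact h
  have hξd : ξ ^ d = 1 := hξ.pow_eq_one
  have hℓ0 : (P.ℓ : Qb) ≠ 0 := by exact_mod_cast P.prime.ne_zero
  set y : ι → ℕ → Qb := fun i k => hat ξ d (orb 𝒟 σ₀ (f i) x) k with hy
  -- the entry of largest valuation
  have hex : ∀ k, ∃ c : Qb, (∀ i, Dv P c (y i k)) ∧ (c = 0 ∨ ∃ i, c = y i k) := by
    intro k
    rcases isEmpty_or_nonempty ι with hι | hι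
    · exact ⟨0, fun i => (hι.false i).elim, Or.inl rfl⟩
    · obtain ⟨i₀, hi₀⟩ := Finite.exists_max (fun i => P.v (y i k))
      exact ⟨y i₀ k, fun i => hi₀ i, Or.inr ⟨i₀, rfl⟩⟩
  choose c hc1 hc2 using hex
  refine ⟨c, fun i k => hc1 k i, ?_⟩
  by_cases hz : ∃ k < d, c k = 0
  · obtain ⟨k, hk, hck⟩ := hz
    rw [Finset.prod_eq_zero (Finset.mem_range.2 hk) hck, map_zero, zero_pow (by omega)]
    exact zero_le
  push Not at hz
  -- eigenvector property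
  have heig : ∀ k < d, ∀ (σ : P.ine) (i : ℕ), (∀ x, 𝒟.act σ x = 𝒟.act (σ₀ ^ i) x) →
      (σ : GQ) (c k) = ξ ^ (i * k) * c k := by
    intro k hk σ i hi
    rcases hc2 k with h | ⟨i₀, h⟩
    · exact absurd h (hz k hk)
    · rw [h]
      exact map_hat_orb 𝒟 hc hd hξd (hfE i₀) x k σ i hi
  have hm : ∀ k, ∃ m : ℤ, k < d → P.v (c k) ^ d = P.v (P.ℓ : Qb) ^ m := by
    intro k
    by_cases hk : k < d
    · obtain ⟨m, hm⟩ := exists_zpow_of_eigen (P := P) hξd (hz k hk) (fun σ hσ => by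
        obtain ⟨j, hj⟩ := hc.cyc ⟨σ, hσ⟩
        exact ⟨j * k, heig k hk ⟨σ, hσ⟩ j hj⟩)
      exact ⟨m, fun _ => hm⟩
    · exact ⟨0, fun h => absurd h hk⟩
  choose m hm using hm
  have hge : ∀ k < d, (m₀ : ℤ) ≤ m k := by
    intro k hk
    have h1 : Dv P a₀ (c k) := by
      rcases hc2 k with h | ⟨i₀, h⟩
      · exact absurd h (hz k hk)
      · rw [h]
        apply dv_hat hd hξd
        intro j _
        exact (DualPair.Sge.act 𝒟 (ine_le_dec P) hx (σ₀ ^ j)) (f i₀) (hfH i₀)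
    have h2 : P.v (c k) ^ d ≤ P.v a₀ ^ d := pow_le_pow_left₀ zero_le h1 d
    rw [hm k hk, ha₀, ← zpow_natCast] at h2
    exact (v_zpow_le_iff P hℓ0 (v_ell_lt_one P)).1 h2
  have hinj : ∀ k < d, ∀ k' < d, (d : ℤ) ∣ m k - m k' → k = k' := by
    intro k hk k' hk' hdvd
    have e1 := heig k hk σ₀ 1 (fun x => by rw [pow_one])
    have e2 := heig k' hk' σ₀ 1 (fun x => by rw [pow_one])
    rw [one_mul] at e1 e2
    have := pow_eq_of_class hd hξd σ₀.2 (hz k hk) (hz k' hk') e1 e2 (hm k hk) (hm k' hk') hdvd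
    exact hξ.pow_inj hk hk' this
  have hsum := sum_ge d m m₀ hge hinj
  have hprod : P.v (∏ k ∈ Finset.range d, c k) ^ (2 * d) =
      P.v (P.ℓ : Qb) ^ (2 * ∑ k ∈ Finset.range d, m k) := by
    rw [map_prod, ← Finset.prod_pow, Finset.mul_sum, Cyc_zpow_sum (v_ell_ne_zero P)]
    apply Finset.prod_congr rfl
    intro k hk
    rw [mul_comm 2 d, pow_mul, hm k (Finset.mem_range.1 hk), mul_comm 2 (m k), zpow_mul]
    rfl
  rw [hprod, ← zpow_natCast, v_zpow_le_iff P hℓ0 (v_ell_lt_one P)]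
  have hcast : ((d * (2 * m₀ + (d - 1)) : ℕ) : ℤ) = (d : ℤ) * (2 * m₀ + d - 1) := by
    push_cast [Nat.cast_sub hd0]
    ring
  rw [hcast]
  exact hsum

end Vol

end Fermat.Agent.S56.F

end
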