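/-
S56 block (F), A10 (VOL), V3d: orbit decomposition of a cyclic free action.  (Plan: Vol/Det.lean.)
-/
import Fermat.Agent.S56.F.Order.Vol.Cyc

set_option autoImplicit false

open Fermat.Agent.PT.Local

noncomputable section

namespace Fermat.Agent.S56.F

namespace Vol

variable {P : Plc}

variable {X X' : Type} [AddCommGroup X] [AddCommGroup X'] [Fintype X] [Fintype X']
  [DecidableEq X] [DecidableEq X'] (𝒟 : DualPair P P.ine X X') {σ₀ : P.ine} {d : ℕ}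

omit [DecidableEq X] [DecidableEq X'] in
theorem Reps_act_add (i j : ℕ) (x : X) :
    𝒟.act (σ₀ ^ (i + j)) x = 𝒟.act (σ₀ ^ i) (𝒟.act (σ₀ ^ j) x) := by
  rw [pow_add, 𝒟.act_mul]

omit [DecidableEq X] [DecidableEq X'] in
theorem Reps_act_zero (x : X) : 𝒟.act (σ₀ ^ 0) x = x := by
  rw [pow_zero, 𝒟.act_one]

omit [DecidableEq X] [DecidableEq X'] in
theorem Reps_act_mul_d (hc : CycFree 𝒟.act σ₀ d) (j : ℕ) (x : X) :
    𝒟.act (σ₀ ^ (d * j)) x = x := by
  induction j with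
  | zero => rw [Nat.mul_zero, Reps_act_zero]
  | succ j ih => rw [Nat.mul_succ, Reps_act_add, hc.ord, ih]

omit [DecidableEq X] [DecidableEq X'] in
theorem Reps_act_mod (hc : CycFree 𝒟.act σ₀ d) (j : ℕ) (x : X) :
    𝒟.act (σ₀ ^ (j % d)) x = 𝒟.act (σ₀ ^ j) x := by
  conv_rhs => rw [← Nat.mod_add_div j d, Reps_act_add, Reps_act_mul_d 𝒟 hc]

omit [DecidableEq X] [DecidableEq X'] in
theorem Reps_act_leftInv (hc : CycFree 𝒟.act σ₀ d) (hd0 : 0 < d) (j : ℕ) (x : X) :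
    𝒟.act (σ₀ ^ ((d - 1) * j)) (𝒟.act (σ₀ ^ j) x) = x := by
  rw [← Reps_act_add]
  have h : (d - 1) * j + j = d * j := by
    obtain ⟨e, rfl⟩ : ∃ e, d = e + 1 := ⟨d - 1, by omega⟩
    simp only [Nat.add_sub_cancel]
    ring
  rw [h, Reps_act_mul_d 𝒟 hc]

omit [DecidableEq X] [DecidableEq X'] in
theorem Reps_act_inj (hc : CycFree 𝒟.act σ₀ d) (hd0 : 0 < d) (j : ℕ) :
    Function.Injective (𝒟.act (σ₀ ^ j)) :=
  Function.LeftInverse.injective (Reps_act_leftInv 𝒟 hc hd0 j)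

omit [DecidableEq X] [DecidableEq X'] in
/-- two exponents `< d` with the same effect on a nonzero point agree. -/
theorem Reps_exp_inj (hc : CycFree 𝒟.act σ₀ d) (hd0 : 0 < d) {x : X} (hx : x ≠ 0) {i j : ℕ}
    (hi : i < d) (hj : j < d) (h : 𝒟.act (σ₀ ^ i) x = 𝒟.act (σ₀ ^ j) x) : i = j := by
  have key : ∀ i j : ℕ, i ≤ j → j < d → 𝒟.act (σ₀ ^ i) x = 𝒟.act (σ₀ ^ j) x → i = j := by
    intro i j hij hj h
    by_contra hne
    obtain ⟨e, rfl⟩ : ∃ e, j = i + e := ⟨j - i, by omega⟩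
    rw [Reps_act_add] at h
    have h2 := Reps_act_inj 𝒟 hc hd0 i h
    exact hx (hc.free e (by omega) (by omega) x h2.symm)
  rcases le_total i j with hij | hij
  · exact key i j hij hj h
  · exact (key j i hij hi h.symm).symm

/-- the orbit relation. -/
def RepsSetoid (hc : CycFree 𝒟.act σ₀ d) (hd0 : 0 < d) : Setoid X where
  r x y := ∃ j : ℕ, 𝒟.act (σ₀ ^ j) x = y
  iseqv :=
    { refl := fun x => ⟨0, Reps_act_zero 𝒟 x⟩
      symm := by
        rintro x y ⟨j, rfl⟩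
        exact ⟨(d - 1) * j, Reps_act_leftInv 𝒟 hc hd0 j x⟩
      trans := by
        rintro x y z ⟨j, rfl⟩ ⟨i, rfl⟩
        exact ⟨i + j, Reps_act_add 𝒟 i j x⟩ }

/-- Orbit decomposition (use `DualPair.act_mul`, `act_one`). -/
theorem exists_reps (hc : CycFree 𝒟.act σ₀ d) (hd0 : 0 < d) :
    ∃ R : Finset X, Function.Bijective (fun q : Option (R × Fin d) =>
      q.elim (0 : X) (fun rj => 𝒟.act (σ₀ ^ (rj.2 : ℕ)) (rj.1 : X))) := by
  classical
  let s : Setoid X := RepsSetoid 𝒟 hc hd0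
  let rep : X → X := fun x => (Quotient.mk s x).out
  have hrep : ∀ x, ∃ j : ℕ, 𝒟.act (σ₀ ^ j) (rep x) = x := fun x =>
    Quotient.exact (Quotient.out_eq (Quotient.mk s x))
  have hrep_eq : ∀ x y, (∃ j : ℕ, 𝒟.act (σ₀ ^ j) x = y) → rep x = rep y := by
    intro x y h
    have : Quotient.mk s x = Quotient.mk s y := Quotient.sound h
    simp only [rep, this]
  refine ⟨Finset.univ.filter (fun x => x ≠ 0 ∧ rep x = x), ?_, ?_⟩
  · rintro (_ | ⟨⟨r, hr⟩, i⟩) (_ | ⟨⟨r', hr'⟩, i'⟩) h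
    · rfl
    · exfalso
      simp only [Option.elim] at h
      rw [Finset.mem_filter] at hr'
      apply hr'.2.1
      apply Reps_act_inj 𝒟 hc hd0 (i' : ℕ)
      rw [← h, map_zero]
    · exfalso
      simp only [Option.elim] at h
      rw [Finset.mem_filter] at hr
      apply hr.2.1
      apply Reps_act_inj 𝒟 hc hd0 (i : ℕ)
      rw [h, map_zero]
    · simp only [Option.elim] at h
      have hr1 := (Finset.mem_filter.1 hr).2
      have hr1' := (Finset.mem_filter.1 hr').2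
      have e1 : rep r = rep (𝒟.act (σ₀ ^ (i : ℕ)) r) := hrep_eq _ _ ⟨i, rfl⟩
      have e2 : rep r' = rep (𝒟.act (σ₀ ^ (i' : ℕ)) r') := hrep_eq _ _ ⟨i', rfl⟩
      have e3 : r = r' := by
        rw [← hr1.2, ← hr1'.2, e1, e2, h]
      subst e3
      have e4 : (i : ℕ) = (i' : ℕ) := Reps_exp_inj 𝒟 hc hd0 hr1.1 i.2 i'.2 h
      have e5 : i = i' := Fin.ext e4
      subst e5
      rfl
  · intro x
    by_cases hx : x = 0
    · exact ⟨none, hx.symm⟩
    · obtain ⟨j, hj⟩ := hrep x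
      have hr0 : rep x ≠ 0 := by
        intro h0
        rw [h0, map_zero] at hj
        exact hx hj.symm
      have hrr : rep (rep x) = rep x := hrep_eq _ _ ⟨j, hj⟩
      refine ⟨some (⟨rep x, Finset.mem_filter.2 ⟨Finset.mem_univ _, hr0, hrr⟩⟩,
        ⟨j % d, Nat.mod_lt _ hd0⟩), ?_⟩
      simp only [Option.elim]
      rw [Reps_act_mod 𝒟 hc, hj]

theorem dvd_card_sub_one (hc : CycFree 𝒟.act σ₀ d) (hd0 : 0 < d) : d ∣ Fintype.card X - 1 := by
  obtain ⟨R, hR⟩ := exists_reps 𝒟 hc hd0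
  have h := Fintype.card_of_bijective hR
  rw [Fintype.card_option, Fintype.card_prod, Fintype.card_fin] at h
  rw [← h, Nat.add_sub_cancel]
  exact Dvd.intro_left _ rfl

/-- If `d = n - 1` the action is transitive on `X \ 0`. -/
theorem exists_pow_act_eq (hc : CycFree 𝒟.act σ₀ d) (hd0 : 0 < d) (hdn : d = Fintype.card X - 1) {x x' : X}
    (hx : x ≠ 0) (hx' : x' ≠ 0) : ∃ j : ℕ, 𝒟.act (σ₀ ^ j) x = x' := by
  classical
  let g : Fin d → {y : X // y ≠ 0} := fun j => ⟨𝒟.act (σ₀ ^ (j : ℕ)) x, by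
    intro h0
    apply hx
    apply Reps_act_inj 𝒟 hc hd0 (j : ℕ)
    rw [h0, map_zero]⟩
  have hg : Function.Injective g := by
    intro i j h
    have h1 : 𝒟.act (σ₀ ^ (i : ℕ)) x = 𝒟.act (σ₀ ^ (j : ℕ)) x := congrArg Subtype.val h
    exact Fin.ext (Reps_exp_inj 𝒟 hc hd0 hx i.2 j.2 h1)
  have hcard : Fintype.card (Fin d) = Fintype.card {y : X // y ≠ 0} := by
    rw [Fintype.card_fin, Fintype.card_subtype_compl, Fintype.card_subtype_eq, hdn]
  have hbij := (Fintype.bijective_iff_injective_and_card g).2 ⟨hg, hcard⟩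
  obtain ⟨j, hj⟩ := hbij.2 ⟨x', hx'⟩
  exact ⟨j, congrArg Subtype.val hj⟩

end Vol

end Fermat.Agent.S56.F

end
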