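/-
S56 block (F), A10 (VOL), V3: the bound for the determinant of an equivariant family.  (Plan: Vol/Det.lean.)
-/
import Fermat.Agent.S56.F.Order.Vol.Reps
import Fermat.Agent.S56.F.Order.Vol.Det

set_option autoImplicit false

open Fermat.Agent.PT.Local

noncomputable section

namespace Fermat.Agent.S56.F

namespace Vol

variable {P : Plc}

variable {X X' : Type} [AddCommGroup X] [AddCommGroup X'] [Fintype X] [Fintype X']
  [DecidableEq X] [DecidableEq X'] (𝒟 : DualPair P P.ine X X') {σ₀ : P.ine} {d : ℕ}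

theorem DetLe_pow_mem {ξ : Qb} {d : ℕ} (hd0 : 0 < d) (hξ : ξ ^ d = 1) (n : ℕ) : ξ ^ n ∈ P.A := by
  have h1 : IsIntegral ℤ ξ := ⟨Polynomial.X ^ d - 1, Polynomial.monic_X_pow_sub_C 1 hd0.ne', by simp [hξ]⟩
  have h2 := v_le_one_of_isIntegral P (h1.pow n)
  exact (ValuationSubring.valuation_le_one_iff P.A _).1 h2

/-- **V3.** -/
theorem v_det_le (hc : CycFree 𝒟.act σ₀ d) (hd : ¬ P.ℓ ∣ d) (a₀ : Qb) (m₀ : ℕ)
    (ha₀ : P.v a₀ ^ d = P.v (P.ℓ : Qb) ^ m₀) (hS : ∀ x, 𝒟.Sge x a₀) (f : X → X → Qb) (hfH : ∀ i, f i ∈ 𝒟.H)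
    (hfE : ∀ i, Equi 𝒟.act (f i)) :
    P.v (Matrix.of f).det ^ (2 * d) ≤ P.v (P.ℓ : Qb) ^ ((Fintype.card X - 1) * (2 * m₀ + (d - 1))) := by
  classical
  have hd0 : 0 < d := by
    rcases Nat.eq_zero_or_pos d with h | h
    · exact absurd (h ▸ dvd_zero _) hd
    · exact h
  have : NeZero (d : Qb) := ⟨Nat.cast_ne_zero.mpr hd0.ne'⟩
  obtain ⟨ξ, hξ⟩ := HasEnoughRootsOfUnity.exists_primitiveRoot Qb d
  obtain ⟨R, hR⟩ := exists_reps 𝒟 hc hd0
  set β : Option (R × Fin d) ≃ X := Equiv.ofBijective _ hR with hβ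
  have hβn : β none = 0 := rfl
  have hβs : ∀ (r : R) (i : Fin d), β (some (r, i)) = 𝒟.act (σ₀ ^ (i : ℕ)) (r : X) := fun _ _ => rfl
  -- column bounds
  have hcol : ∀ r : R, ∃ c : ℕ → Qb, (∀ i k, Dv P (c k) (hat ξ d (orb 𝒟 σ₀ (f i) (r : X)) k)) ∧
      P.v (∏ k ∈ Finset.range d, c k) ^ (2 * d) ≤ P.v (P.ℓ : Qb) ^ (d * (2 * m₀ + (d - 1))) :=
    fun r => exists_col_bound 𝒟 hc hd hξ a₀ m₀ ha₀ (r : X) (hS r) f hfH hfE
  choose cr hcr1 hcr2 using hcol
  let M : Matrix (Option (R × Fin d)) (Option (R × Fin d)) Qb := fun q j =>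
    j.elim (f (β q) 0) (fun rk => hat ξ d (orb 𝒟 σ₀ (f (β q)) (rk.1 : X)) (rk.2 : ℕ))
  let T : Matrix (Option (R × Fin d)) (Option (R × Fin d)) Qb := fun j j' =>
    j.elim 1 (fun rk => j'.elim 0 (fun ri => if rk.1 = ri.1 then ξ ^ ((ri.2 : ℕ) * (rk.2 : ℕ)) else 0))
  let c : Option (R × Fin d) → Qb := fun j => j.elim 1 (fun rk => cr rk.1 (rk.2 : ℕ))
  have hF : (Matrix.of f).submatrix β β = M * T := by
    ext q j'
    rw [Matrix.mul_apply, Fintype.sum_option]
    cases j' with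
    | none =>
      simp only [Matrix.submatrix_apply, Matrix.of_apply, hβn, M, T, Option.elim, mul_one, mul_zero,
        Finset.sum_const_zero, add_zero]
    | some ri =>
      obtain ⟨r', i⟩ := ri
      simp only [Matrix.submatrix_apply, Matrix.of_apply, hβs, M, T, Option.elim, mul_one]
      rw [Fintype.sum_prod_type, Finset.sum_eq_single r']
      · simp only [if_true]
        have h1 := hat_inv hξ hd0 (orb 𝒟 σ₀ (f (β q)) (r' : X)) i.2
        rw [Finset.sum_range] at h1
        have h2 : ∑ k : Fin d, hat ξ d (orb 𝒟 σ₀ (f (β q)) (r' : X)) (k : ℕ) * ξ ^ ((i : ℕ) * (k : ℕ)) =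
            orb 𝒟 σ₀ (f (β q)) (r' : X) (i : ℕ) := by
          rw [h1]
          exact Finset.sum_congr rfl fun k _ => mul_comm _ _
        rw [h2, orb]
        ring
      · intro r _ hr
        apply Finset.sum_eq_zero
        intro k _
        rw [if_neg hr, mul_zero]
      · intro h
        exact absurd (Finset.mem_univ _) h
  have hT : ∀ j j', T j j' ∈ P.A := by
    intro j j'
    cases j with
    | none => exact P.A.one_mem
    | some rk =>
      cases j' with
      | none => exact P.A.zero_mem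
      | some ri =>
        simp only [T, Option.elim]
        split_ifs
        · exact DetLe_pow_mem hd0 hξ.pow_eq_one _
        · exact P.A.zero_mem
  have hM : ∀ q j, Dv P (c j) (M q j) := by
    intro q j
    cases j with
    | none =>
      simp only [c, M, Option.elim, Dv, map_one]
      exact (ValuationSubring.valuation_le_one_iff P.A _).2 (𝒟.apply_mem (hfH _) 0)
    | some rk => exact hcr1 rk.1 (β q) rk.2
  have hdet := dv_det_of_factor _ M T hF hT c hM
  rw [Matrix.det_submatrix_equiv_self] at hdet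
  have hprod : ∏ j, c j = ∏ r : R, ∏ k ∈ Finset.range d, cr r k := by
    rw [Fintype.prod_option, Fintype.prod_prod_type]
    simp only [c, Option.elim, one_mul]
    exact Finset.prod_congr rfl fun r _ => (Finset.prod_range (fun k => cr r k)).symm
  have hcard : Fintype.card X - 1 = Fintype.card R * d := by
    rw [← Fintype.card_congr β, Fintype.card_option, Fintype.card_prod, Fintype.card_fin]
    simp
  calc P.v (Matrix.of f).det ^ (2 * d) ≤ P.v (∏ j, c j) ^ (2 * d) := pow_le_pow_left₀ zero_le hdet _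
    _ = ∏ r : R, P.v (∏ k ∈ Finset.range d, cr r k) ^ (2 * d) := by
        rw [hprod, map_prod, Finset.prod_pow]
    _ ≤ ∏ _r : R, P.v (P.ℓ : Qb) ^ (d * (2 * m₀ + (d - 1))) :=
        Finset.prod_le_prod' fun r _ => hcr2 r
    _ = P.v (P.ℓ : Qb) ^ ((Fintype.card X - 1) * (2 * m₀ + (d - 1))) := by
        rw [Finset.prod_const, Finset.card_univ, ← pow_mul, hcard]
        congr 1
        ring

end Vol

end Fermat.Agent.S56.F

end
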