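/-
S56 block (F), A10 (VOL), V4a: the level of a point.  (Plan: Vol/Det.lean.)
-/
import Fermat.Agent.S56.F.Order.Vol.Cyc
import Fermat.Agent.S56.F.Order.Points

set_option autoImplicit false

open Fermat.Agent.PT.Local

noncomputable section

namespace Fermat.Agent.S56.F

namespace Vol

variable {P : Plc}

variable {X X' : Type} [AddCommGroup X] [AddCommGroup X'] [Finite X] [Finite X']
  (𝒟 : DualPair P P.ine X X') {σ₀ : P.ine} {d : ℕ}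

/-- **The level of a point** lies in `(1/d) ℤ_{>0}`.
PROOF: `f0` from `exists_attained`, `a₁ = f0 x ≠ 0` (`eq_zero_of_sge_zero`).  `a₁ = orb f0 x 0 = ∑_k hat .. k` (`hat_inv`), each `hat .. k` is divisible by
`a₁` (`dv_hat`; `orb f0 x j = σ₀^j a₁`, `v_map`), so `v a₁ = v (hat .. k)` for some `k`, and `exists_zpow_of_eigen` (`map_hat_orb`, `hc.cyc`).
`m₁ ≥ 1`: `x' ↦ act σ₀ x' - x'` is injective (`hc.free 1`), hence surjective, so `Conn x` by `conn_act_sub`. -/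
theorem exists_level (hc : CycFree 𝒟.act σ₀ d) (hd : ¬ P.ℓ ∣ d) (hd1 : 1 < d) {x : X} (hx : x ≠ 0) :
    ∃ (a₁ : Qb) (m₁ : ℕ), 1 ≤ m₁ ∧ P.v a₁ ^ d = P.v (P.ℓ : Qb) ^ m₁ ∧ ∀ a, 𝒟.Sge x a ↔ Dv P a a₁ := by
  classical
  have hd0 : 0 < d := by omega
  have : NeZero d := ⟨hd0.ne'⟩
  obtain ⟨ξ, hξ⟩ := HasEnoughRootsOfUnity.exists_primitiveRoot Qb d
  obtain ⟨f0, hf0H, hf0E, hf00, hS⟩ := 𝒟.exists_attained x
  have ha₁ : f0 x ≠ 0 := by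
    intro h0
    exact hx (𝒟.eq_zero_of_sge_zero ((hS 0).2 (by rw [h0]; exact Dv.refl P 0)))
  have hva₁ : P.v (f0 x) ≠ 0 := (Valuation.ne_zero_iff _).2 ha₁
  -- the orbit
  have horb : ∀ j, orb 𝒟 σ₀ f0 x j = ((σ₀ ^ j : P.ine) : GQ) (f0 x) := by
    intro j
    rw [orb, hf00, sub_zero, hf0E]
  have hvorb : ∀ j, P.v (orb 𝒟 σ₀ f0 x j) = P.v (f0 x) := by
    intro j
    rw [horb, v_map P (ine_le_dec P (σ₀ ^ j).2)]
  have hdv : ∀ k, P.v (hat ξ d (orb 𝒟 σ₀ f0 x) k) ≤ P.v (f0 x) := fun k =>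
    dv_hat hd hξ.pow_eq_one (orb 𝒟 σ₀ f0 x) (f0 x) (fun j _ => (hvorb j).le) k
  have hsum : f0 x = ∑ k ∈ Finset.range d, hat ξ d (orb 𝒟 σ₀ f0 x) k := by
    have h1 := hat_inv hξ hd0 (orb 𝒟 σ₀ f0 x) (i := 0) hd0
    rw [horb] at h1
    simpa using h1
  obtain ⟨k, hk⟩ : ∃ k, P.v (hat ξ d (orb 𝒟 σ₀ f0 x) k) = P.v (f0 x) := by
    by_contra hcon
    push Not at hcon
    have h1 : P.v (∑ k ∈ Finset.range d, hat ξ d (orb 𝒟 σ₀ f0 x) k) < P.v (f0 x) :=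
      Valuation.map_sum_lt _ hva₁ fun k _ => lt_of_le_of_ne (hdv k) (hcon k)
    rw [← hsum] at h1
    exact lt_irrefl _ h1
  have hy : hat ξ d (orb 𝒟 σ₀ f0 x) k ≠ 0 := by
    intro h0
    rw [h0, map_zero] at hk
    exact hva₁ hk.symm
  obtain ⟨m, hm⟩ := exists_zpow_of_eigen (P := P) hξ.pow_eq_one hy (fun σ hσ => by
    obtain ⟨i, hi⟩ := hc.cyc ⟨σ, hσ⟩
    exact ⟨i * k, map_hat_orb 𝒟 hc hd hξ.pow_eq_one hf0E x k ⟨σ, hσ⟩ i hi⟩)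
  rw [hk] at hm
  -- connectedness
  have hconn : 𝒟.Conn x := by
    let T : X →+ X := 𝒟.act σ₀ - AddMonoidHom.id X
    have hT : ∀ y, T y = 𝒟.act σ₀ y - y := fun y => rfl
    have hinj : Function.Injective T := by
      rw [injective_iff_map_eq_zero]
      intro y hy
      rw [hT, sub_eq_zero] at hy
      exact hc.free 1 one_pos hd1 y (by rw [pow_one]; exact hy)
    obtain ⟨y, hy⟩ := (Finite.injective_iff_surjective.1 hinj) x
    rw [← hy, hT]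
    exact 𝒟.conn_act_sub σ₀ σ₀.2 y
  obtain ⟨a, ha, hxa⟩ := hconn
  have hlt : P.v (f0 x) < 1 := lt_of_le_of_lt ((hS a).1 hxa) ha
  have hℓ0 : (P.ℓ : Qb) ≠ 0 := by exact_mod_cast P.prime.ne_zero
  have hm1 : 1 ≤ m := by
    by_contra hcon
    have hm0 : m ≤ 0 := by omega
    have h1 : P.v (P.ℓ : Qb) ^ (0 : ℤ) ≤ P.v (P.ℓ : Qb) ^ m :=
      (v_zpow_le_iff P hℓ0 (v_ell_lt_one P)).2 hm0
    rw [zpow_zero, ← hm] at h1
    exact absurd h1 (not_le.2 (pow_lt_one₀ zero_le' hlt hd0.ne'))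
  refine ⟨f0 x, m.toNat, by omega, ?_, hS⟩
  rw [hm, ← zpow_natCast, Int.toNat_of_nonneg (by omega)]

end Vol

end Fermat.Agent.S56.F

end
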