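/-
S56 block (F), A10 (VOL), V1 + V2: the character table and dual lattices.  (Plan: Vol/Det.lean.)
-/
import Fermat.Agent.S56.F.Order.Vol.Det
import Fermat.Agent.S56.F.Order.LinAlg

set_option autoImplicit false

open Fermat.Agent.PT.Local

noncomputable section

namespace Fermat.Agent.S56.F

namespace Vol

variable {P : Plc}

variable {Γ : Subgroup GQ} {X X' : Type} [AddCommGroup X] [AddCommGroup X'] [Fintype X] [Fintype X']
  [DecidableEq X] [DecidableEq X']

/-- The character table. -/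
def Xi (𝒟 : PerfPair Γ X X') (ε : X ≃ X') : Matrix X X Qb := Matrix.of fun x y => (𝒟.e x (ε y))⁻¹

/-- **V1.**  `Ξ * Ξ₂ = n`, `Ξ₂ y x = e x (ε y)` (`PerfPair.sum_e_right`, `card_eq`), and `Ξ₂ᵀ = Ξ.submatrix neg id`
(`Matrix.det_permute` / `det_submatrix_equiv_self`-style: the determinant changes by a sign). -/
theorem v_det_Xi_sq (𝒟 : PerfPair Γ X X') (ε : X ≃ X') :
    P.v (Xi 𝒟 ε).det ^ 2 = P.v (Fintype.card X : Qb) ^ Fintype.card X := by
  set Ξ₂ : Matrix X X Qb := Matrix.of fun y x => 𝒟.e x (ε y) with hΞ₂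
  have hmul : Xi 𝒟 ε * Ξ₂ = (Fintype.card X : Qb) • (1 : Matrix X X Qb) := by
    ext x x'
    rw [Matrix.mul_apply, Matrix.smul_apply, Matrix.one_apply, smul_eq_mul]
    have h1 : ∀ y, Xi 𝒟 ε x y * Ξ₂ y x' = 𝒟.e (x' - x) (ε y) := by
      intro y
      show (𝒟.e x (ε y))⁻¹ * 𝒟.e x' (ε y) = _
      rw [sub_eq_add_neg, 𝒟.e_add_left, 𝒟.e_neg_left, mul_comm]
    rw [Finset.sum_congr rfl (fun y _ => h1 y), Equiv.sum_comp ε (fun w => 𝒟.e (x' - x) w),
      𝒟.sum_e_right, ← 𝒟.card_eq, Nat.card_eq_fintype_card]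
    by_cases hx : x = x'
    · subst hx
      simp
    · rw [if_neg hx, if_neg (sub_ne_zero.2 (Ne.symm hx)), mul_zero]
  have hT : Ξ₂.transpose = (Xi 𝒟 ε).submatrix (Equiv.neg X) id := by
    ext x y
    show 𝒟.e x (ε y) = (𝒟.e (-x) (ε y))⁻¹
    rw [𝒟.e_neg_left, inv_inv]
  have hdet : P.v Ξ₂.det = P.v (Xi 𝒟 ε).det := by
    rw [← Matrix.det_transpose, hT, Matrix.det_permute, map_mul]
    rcases Int.units_eq_one_or (Equiv.Perm.sign (Equiv.neg X)) with h | h <;> simp [h]
  have h2 := congrArg Matrix.det hmul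
  rw [Matrix.det_mul, Matrix.det_smul, Matrix.det_one, mul_one] at h2
  rw [sq]
  nth_rewrite 2 [← hdet]
  rw [← map_mul, h2, map_pow]

/-- `F * Ξ * Bᵀ = n` for dual bases (`PerfPair.pairing_eq_sum`). -/
theorem det_mul_of_dual (𝒟 : PerfPair Γ X X') (ε : X ≃ X') (f : X → X → Qb) (b : X → X' → Qb)
    (h : ∀ i j, pairing 𝒟.e (f i) (b j) = if i = j then 1 else 0) :
    (Matrix.of f).det * (Xi 𝒟 ε).det * (Matrix.of fun j y => b j (ε y)).det
      = (Fintype.card X : Qb) ^ Fintype.card X := by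
  have hn : (Fintype.card X : Qb) ≠ 0 := Nat.cast_ne_zero.2 Fintype.card_ne_zero
  have hmul : Matrix.of f * Xi 𝒟 ε * (Matrix.of fun j y => b j (ε y)).transpose =
      (Fintype.card X : Qb) • (1 : Matrix X X Qb) := by
    ext i j
    rw [Matrix.mul_apply, Matrix.smul_apply, Matrix.one_apply, smul_eq_mul, ← h i j,
      𝒟.pairing_eq_sum, Nat.card_eq_fintype_card, mul_inv_cancel_left₀ hn, Finset.sum_comm,
      ← Equiv.sum_comp ε]
    refine Finset.sum_congr rfl fun y _ => ?_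
    rw [Matrix.mul_apply, Finset.sum_mul]
    refine Finset.sum_congr rfl fun x _ => ?_
    show f i x * (𝒟.e x (ε y))⁻¹ * b j (ε y) = _
    ring
  have h2 := congrArg Matrix.det hmul
  rwa [Matrix.det_mul, Matrix.det_mul, Matrix.det_transpose, Matrix.det_smul, Matrix.det_one,
    mul_one] at h2

/-- **V2.**  PROOF: `exists_dual_basis` (for `𝒟.pairingL`, `pairing_nondeg_left`) gives `b⋆ : X → X' → Qb`; `𝒟.B = span_O b⋆` by
`mem_span_dual_basis_iff` and `mem_B_iff`; `v_det_le_of_mem_span` twice (`b` versus `b⋆`, with `Equiv.refl` and `ε`); `det_mul_of_dual`. -/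
theorem v_det_mul (𝒟 : DualPair P Γ X X') (ε : X ≃ X') (f : X → X → Qb) (hli : LinearIndependent Qb f)
    (hsp : Submodule.span Qb (Set.range f) = ⊤) (hH : 𝒟.H = Submodule.span P.A (Set.range f))
    (b : X' → X' → Qb) (hB : 𝒟.B = Submodule.span P.A (Set.range b)) :
    P.v (Matrix.of f).det * P.v (Xi 𝒟.toPerfPair ε).det * P.v (Matrix.of b).det
      = P.v (Fintype.card X : Qb) ^ Fintype.card X := by
  obtain ⟨bs, -, hbsp, hdual⟩ := exists_dual_basis 𝒟.card_eq 𝒟.pairingL
    (fun g hg => 𝒟.pairing_nondeg_left g hg) f hli hsp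
  have hBs : 𝒟.B = Submodule.span P.A (Set.range bs) := by
    ext c
    rw [𝒟.mem_B_iff, mem_span_dual_basis_iff P 𝒟.pairingL f bs hbsp hdual c, ← hH]
    rfl
  have h1 := det_mul_of_dual 𝒟.toPerfPair ε f bs hdual
  have h2 : P.v (Matrix.of b).det ≤ P.v (Matrix.of fun j y => bs j (ε y)).det :=
    v_det_le_of_mem_span (P := P) bs b ε (Equiv.refl X') (fun j => by
      rw [← hBs, hB]
      exact Submodule.subset_span (Set.mem_range_self j))
  have h3 : P.v (Matrix.of fun j y => bs j (ε y)).det ≤ P.v (Matrix.of b).det :=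
    v_det_le_of_mem_span (P := P) b bs (Equiv.refl X') ε (fun j => by
      rw [← hB, hBs]
      exact Submodule.subset_span (Set.mem_range_self j))
  rw [le_antisymm h2 h3, ← map_mul, ← map_mul, h1, map_pow]

/-- An equivariant basis can be indexed by `X` itself (`#ι = finrank = #X`). -/
theorem exists_basis_self {act : Γ → X →+ X} {L : Submodule P.A (X → Qb)} (h : HasEquiBasis P act L) :
    ∃ f : X → X → Qb, (∀ i, Equi act (f i)) ∧ LinearIndependent Qb f ∧
      Submodule.span Qb (Set.range f) = ⊤ ∧ L = Submodule.span P.A (Set.range f) := by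
  obtain ⟨ι, _, f, hE, hli, hsp, hL⟩ := h
  have hcard : Fintype.card X = Fintype.card ι := by
    rw [← Module.finrank_fintype_fun_eq_card Qb (η := X),
      Module.finrank_eq_card_basis (Module.Basis.mk hli hsp.ge)]
  let e : X ≃ ι := Fintype.equivOfCardEq hcard
  have hr : Set.range (f ∘ e) = Set.range f := EquivLike.range_comp f e
  refine ⟨f ∘ e, fun i => hE (e i), hli.comp e e.injective, ?_, ?_⟩
  · rw [hr, hsp]
  · rw [hr, hL]

end Vol

end Fermat.Agent.S56.F

end
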