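/-
S56 block (F), A10 (VOL): the main theorem.  (Plan: Vol/Det.lean.)
-/
import Fermat.Agent.S56.F.Order.Vol.DetLe
import Fermat.Agent.S56.F.Order.Vol.Pair
import Fermat.Agent.S56.F.Order.Vol.Level

set_option autoImplicit false

open Fermat.Agent.PT.Local

noncomputable section

namespace Fermat.Agent.S56.F

namespace Vol

variable {P : Plc}

section cyc

variable {X X' : Type} [AddCommGroup X] [AddCommGroup X'] [Fintype X] [Fintype X']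
  [DecidableEq X] [DecidableEq X'] (𝒟 : DualPair P P.ine X X') {σ₀ : P.ine} {d : ℕ}

/-- **V4b.**  `exists_basis_self` for `𝒟.basis_H`, `𝒟.basis_B`; `v_det_le` for `𝒟` and for `𝒟.swap`; `v_det_mul`, `v_det_Xi_sq`
(`ε` from `PerfPair.card_eq`): `(v(det F) v(det Bm))^2 = v(n)^n = v(p)^(2n)`. -/
theorem vol_ineq (hcard : Fintype.card X = P.ℓ ^ 2) (hc : CycFree 𝒟.act σ₀ d) (hc' : CycFree 𝒟.act' σ₀ d)
    (hd : ¬ P.ℓ ∣ d) (a₀ : Qb) (m₀ : ℕ) (ha₀ : P.v a₀ ^ d = P.v (P.ℓ : Qb) ^ m₀) (hS : ∀ x, 𝒟.Sge x a₀)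
    (a₀' : Qb) (m₀' : ℕ) (ha₀' : P.v a₀' ^ d = P.v (P.ℓ : Qb) ^ m₀') (hS' : ∀ w, 𝒟.Sge' w a₀') :
    (P.ℓ ^ 2 - 1) * (m₀ + m₀' + (d - 1)) ≤ P.ℓ ^ 2 * d := by
  have hcard' : Fintype.card X' = P.ℓ ^ 2 := by
    rw [← hcard, ← Nat.card_eq_fintype_card, ← Nat.card_eq_fintype_card]
    exact (𝒟.toPerfPair.card_eq).symm
  obtain ⟨f, hfE, hli, hsp, hH⟩ := exists_basis_self 𝒟.basis_H
  obtain ⟨b, hbE, -, -, hB⟩ := exists_basis_self 𝒟.basis_B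
  have hfH : ∀ i, f i ∈ 𝒟.H := fun i => by
    rw [hH]
    exact Submodule.subset_span ⟨i, rfl⟩
  have hbB : ∀ i, b i ∈ 𝒟.B := fun i => by
    rw [hB]
    exact Submodule.subset_span ⟨i, rfl⟩
  have ε : X ≃ X' := Fintype.equivOfCardEq (hcard.trans hcard'.symm)
  have h1 := v_det_le 𝒟 hc hd a₀ m₀ ha₀ hS f hfH hfE
  have h2 := v_det_le 𝒟.swap hc' hd a₀' m₀' ha₀' hS' b hbB hbE
  have h3 := v_det_mul 𝒟 ε f hli hsp hH b hB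
  have h4 := v_det_Xi_sq (P := P) 𝒟.toPerfPair ε
  rw [hcard] at h1 h3 h4
  rw [hcard'] at h2
  set π := P.v (P.ℓ : Qb) with hπ
  have hπ0 : 0 < π := zero_lt_iff.2 (v_ell_ne_zero P)
  have hπ1 : π < 1 := v_ell_lt_one P
  have hn : P.v ((P.ℓ ^ 2 : ℕ) : Qb) = π ^ 2 := by
    rw [Nat.cast_pow, map_pow]
  rw [hn] at h3 h4
  set A := P.v (Matrix.of f).det
  set B := P.v (Matrix.of b).det
  set C := P.v (Xi 𝒟.toPerfPair ε).det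
  have h5 : (A * B) ^ 2 = (π ^ 2) ^ P.ℓ ^ 2 := by
    have h6 : (A * B) ^ 2 * (π ^ 2) ^ P.ℓ ^ 2 = (π ^ 2) ^ P.ℓ ^ 2 * (π ^ 2) ^ P.ℓ ^ 2 := by
      calc (A * B) ^ 2 * (π ^ 2) ^ P.ℓ ^ 2 = (A * B) ^ 2 * C ^ 2 := by rw [h4]
        _ = (A * C * B) * (A * C * B) := by
            rw [mul_pow, pow_two, pow_two, pow_two]
            simp only [mul_assoc, mul_comm, mul_left_comm]
        _ = _ := by rw [h3]
    exact mul_right_cancel₀ (pow_ne_zero _ (pow_ne_zero _ hπ0.ne')) h6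
  have h7 : π ^ (2 * (P.ℓ ^ 2 * d)) ≤ π ^ (2 * ((P.ℓ ^ 2 - 1) * (m₀ + m₀' + (d - 1)))) := by
    calc π ^ (2 * (P.ℓ ^ 2 * d)) = ((π ^ 2) ^ P.ℓ ^ 2) ^ d := by
          rw [← pow_mul, ← pow_mul]
      _ = A ^ (2 * d) * B ^ (2 * d) := by
          rw [← h5, ← pow_mul, mul_pow]
      _ ≤ π ^ ((P.ℓ ^ 2 - 1) * (2 * m₀ + (d - 1))) * π ^ ((P.ℓ ^ 2 - 1) * (2 * m₀' + (d - 1))) :=
          mul_le_mul' h1 h2
      _ = π ^ (2 * ((P.ℓ ^ 2 - 1) * (m₀ + m₀' + (d - 1)))) := by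
          rw [← pow_add]
          congr 1
          ring
  have h8 := (pow_le_pow_iff_right_of_lt_one₀ hπ0 hπ1).1 h7
  omega

end cyc

variable {X X' : Type} [AddCommGroup X] [AddCommGroup X'] [Finite X] [Finite X']
  (𝒟 : DualPair P P.ine X X') {σ₀ : P.ine} {d : ℕ}

/-- every point has level at least `1/d`. -/
theorem vol_side_aux (hd : ¬ P.ℓ ∣ d) (hd1 : 1 < d) (hc : CycFree 𝒟.act σ₀ d) {ρ : Qb}
    (hρ : ρ ^ d = (P.ℓ : Qb)) (x : X) : 𝒟.Sge x ρ := by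
  by_cases hx : x = 0
  · rw [hx]
    exact 𝒟.sge_zero ρ
  · obtain ⟨a₁, m₁, hm₁, ha₁, hS⟩ := exists_level 𝒟 hc hd hd1 hx
    rw [hS]
    have hπ0 : 0 < P.v (P.ℓ : Qb) := zero_lt_iff.2 (v_ell_ne_zero P)
    have h1 : P.v a₁ ^ d ≤ P.v ρ ^ d := by
      rw [ha₁, ← map_pow P.v ρ d, hρ]
      calc P.v (P.ℓ : Qb) ^ m₁ ≤ P.v (P.ℓ : Qb) ^ 1 :=
            pow_le_pow_of_le_one hπ0.le (v_ell_lt_one P).le hm₁
        _ = _ := pow_one _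
    exact (pow_le_pow_iff_left₀ zero_le zero_le (by omega)).1 h1

/-- One side of VOL.  PROOF: `ρ^d = p`.  `Sge x ρ`, `Sge' w ρ` for all `x`, `w` (`exists_level` for `𝒟` and `𝒟.swap`).  `vol_ineq` with `(ρ,1)`, `(ρ,1)`
and `arith` (`dvd_card_sub_one`): `d = p^2-1`.  For `x ≠ 0` with level `(a₁,m₁)`: `Sge x' a₁` for all `x'` (`exists_pow_act_eq`, `Sge.act`); `vol_ineq` with
`(a₁,m₁)`, `(ρ,1)` and `arith`: `m₁ = 1`, so `v a₁ = v lam`. -/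
theorem vol_side (hcard : Nat.card X = P.ℓ ^ 2) (hd : ¬ P.ℓ ∣ d) (hd1 : 1 < d) (hc : CycFree 𝒟.act σ₀ d)
    (hc' : CycFree 𝒟.act' σ₀ d) :
    d = P.ℓ ^ 2 - 1 ∧ ∀ lam : Qb, lam ^ (P.ℓ ^ 2 - 1) = -(P.ℓ : Qb) →
      ∀ x, x ≠ 0 → ∀ a, 𝒟.Sge x a ↔ Dv P a lam := by
  classical
  let _ := Fintype.ofFinite X
  let _ := Fintype.ofFinite X'
  have hcardF : Fintype.card X = P.ℓ ^ 2 := by rw [← Nat.card_eq_fintype_card, hcard]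
  have hd0 : 0 < d := by omega
  obtain ⟨ρ, hρ⟩ := IsAlgClosed.exists_pow_nat_eq (P.ℓ : Qb) hd0
  have hvρ : P.v ρ ^ d = P.v (P.ℓ : Qb) ^ 1 := by rw [← map_pow, hρ, pow_one]
  have hS : ∀ x, 𝒟.Sge x ρ := vol_side_aux 𝒟 hd hd1 hc hρ
  have hS' : ∀ w, 𝒟.Sge' w ρ := vol_side_aux 𝒟.swap hd hd1 hc' hρ
  have hn1 : 1 < P.ℓ ^ 2 := Nat.one_lt_pow (by norm_num) P.prime.one_lt
  have hdvd : d ∣ P.ℓ ^ 2 - 1 := by
    rw [← hcardF]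
    exact dvd_card_sub_one 𝒟 hc hd0
  have hdn : d = P.ℓ ^ 2 - 1 :=
    (arith hn1 hdvd le_rfl le_rfl (vol_ineq 𝒟 hcardF hc hc' hd ρ 1 hvρ hS ρ 1 hvρ hS')).1
  refine ⟨hdn, fun lam hlam x hx a => ?_⟩
  obtain ⟨a₁, m₁, hm₁, ha₁, hSx⟩ := exists_level 𝒟 hc hd hd1 hx
  have hxa : 𝒟.Sge x a₁ := (hSx a₁).2 (Dv.refl P a₁)
  have hall : ∀ x', 𝒟.Sge x' a₁ := by
    intro x'
    by_cases hx' : x' = 0
    · rw [hx']
      exact 𝒟.sge_zero a₁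
    · obtain ⟨j, hj⟩ := exists_pow_act_eq 𝒟 hc hd0 (by rw [hcardF]; exact hdn) hx hx'
      rw [← hj]
      exact DualPair.Sge.act 𝒟 (ine_le_dec P) hxa (σ₀ ^ j)
  have hm1 : m₁ = 1 :=
    (arith hn1 hdvd hm₁ le_rfl (vol_ineq 𝒟 hcardF hc hc' hd a₁ m₁ ha₁ hall ρ 1 hvρ hS')).2.1
  have hv : P.v a₁ = P.v lam := by
    have h1 : P.v a₁ ^ d = P.v lam ^ d := by
      rw [ha₁, hm1, pow_one, ← map_pow, hdn, hlam, Valuation.map_neg]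
    exact (pow_left_inj₀ zero_le zero_le hd0.ne').1 h1
  rw [hSx]
  unfold Dv
  rw [hv]

/-- **A10 (VOL).** -/
theorem vol_main (hcard : Nat.card X = P.ℓ ^ 2) (hd : ¬ P.ℓ ∣ d) (hd1 : 1 < d) (hc : CycFree 𝒟.act σ₀ d)
    (hc' : CycFree 𝒟.act' σ₀ d) :
    d = P.ℓ ^ 2 - 1 ∧ ∀ lam : Qb, lam ^ (P.ℓ ^ 2 - 1) = -(P.ℓ : Qb) →
      (∀ x, x ≠ 0 → ∀ a, 𝒟.Sge x a ↔ Dv P a lam) ∧ (∀ w, w ≠ 0 → ∀ a, 𝒟.Sge' w a ↔ Dv P a lam) := by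
  have h1 := vol_side 𝒟 hcard hd hd1 hc hc'
  have h2 := vol_side 𝒟.swap (by rw [← hcard]; exact (𝒟.toPerfPair.card_eq).symm) hd hd1 hc' hc
  exact ⟨h1.1, fun lam hlam => ⟨h1.2 lam hlam, h2.2 lam hlam⟩⟩

end Vol

end Fermat.Agent.S56.F

end
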